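import Mathlib
import Fermat.Agent.MUL.Orig.E.Desc.Defs
import Fermat.Agent.MUL.Lib.Minkowski.Final
import Fermat.Agent.MUL.Orig.Lib.Frobenius.Exists
import Fermat.Agent.MUL.Orig.E.Desc.Dev.Iface
import Fermat.Agent.MUL.Lib.FFL.Unr

section MergeWrap_E_Desc_PCS -- from E/Desc/PCS.lean

set_option autoImplicit false

noncomputable section

namespace Fermat.Agent.EDesc

local notation "Qb" => AlgebraicClosure ℚ
local notation "GQb" => (AlgebraicClosure ℚ ≃ₐ[ℚ] AlgebraicClosure ℚ)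

/-! ### valuation subrings of `ℚ̄` over a prime -/

section Val

variable (A : ValuationSubring Qb)

theorem pcs_val_prime_lt_one {r : ℕ} (hA : A.LiesOverPrime r) : A.valuation (r : Qb) < 1 := by
  have h := hA
  unfold ValuationSubring.LiesOverPrime at h
  exact (ValuationSubring.mem_nonunits_iff A).mp h

theorem pcs_val_prime_ne_zero {r : ℕ} (hr : r.Prime) : A.valuation (r : Qb) ≠ 0 := by
  rw [Valuation.ne_zero_iff]
  exact_mod_cast hr.ne_zero

theorem pcs_val_int_le_one (n : ℤ) : A.valuation (n : Qb) ≤ 1 :=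
  (A.valuation_le_one_iff _).mpr (intCast_mem A n)

/-- an integer prime to `r` is a unit of `A`. -/
theorem pcs_val_int_eq_one {r : ℕ} (hr : r.Prime) (hA : A.LiesOverPrime r) (n : ℤ)
    (hn : ¬ (r : ℤ) ∣ n) : A.valuation (n : Qb) = 1 := by
  have hcop : IsCoprime n (r : ℤ) := by
    have hp : Prime (r : ℤ) := Nat.prime_iff_prime_int.mp hr
    exact ((hp.coprime_iff_not_dvd).mpr hn).symm
  obtain ⟨u, v, huv⟩ := hcop
  by_contra hne
  have hlt : A.valuation (n : Qb) < 1 := lt_of_le_of_ne (pcs_val_int_le_one A n) hne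
  have h1 : A.valuation ((u : Qb) * n) < 1 := by
    rw [map_mul]
    calc A.valuation (u : Qb) * A.valuation (n : Qb) ≤ 1 * A.valuation (n : Qb) :=
          mul_le_mul_left (pcs_val_int_le_one A u) _
      _ < 1 := by rwa [one_mul]
  have h2 : A.valuation ((v : Qb) * (r : Qb)) < 1 := by
    rw [map_mul]
    calc A.valuation (v : Qb) * A.valuation (r : Qb) ≤ 1 * A.valuation (r : Qb) :=
          mul_le_mul_left (pcs_val_int_le_one A v) _
      _ < 1 := by rw [one_mul]; exact pcs_val_prime_lt_one A hA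
  have h3 : A.valuation ((u : Qb) * n + (v : Qb) * (r : Qb)) < 1 :=
    lt_of_le_of_lt (A.valuation.map_add _ _) (max_lt h1 h2)
  have h4 : ((u : Qb) * n + (v : Qb) * (r : Qb)) = 1 := by
    have := congrArg (fun z : ℤ => (z : Qb)) huv
    simpa using this
  rw [h4, map_one] at h3
  exact lt_irrefl _ h3

theorem pcs_val_nat {r : ℕ} (hr : r.Prime) (hA : A.LiesOverPrime r) (n : ℕ) (hn : n ≠ 0) :
    A.valuation (n : Qb) = A.valuation (r : Qb) ^ (padicValNat r n) := by
  haveI := Fact.mk hr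
  obtain ⟨k, n', hn', rfl⟩ := Nat.exists_eq_pow_mul_and_not_dvd hn r hr.ne_one
  have hn'0 : n' ≠ 0 := fun h => hn (by simp [h])
  have hk : padicValNat r (r ^ k * n') = k := by
    rw [padicValNat.mul (pow_ne_zero _ hr.ne_zero) hn'0, padicValNat.prime_pow,
      padicValNat.eq_zero_of_not_dvd hn', add_zero]
  rw [hk]
  have h1 : A.valuation ((n' : ℤ) : Qb) = 1 :=
    pcs_val_int_eq_one A hr hA n' (by exact_mod_cast hn')
  push_cast at h1 ⊢
  rw [map_mul, map_pow, h1, mul_one]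

theorem pcs_val_rat {r : ℕ} (hr : r.Prime) (hA : A.LiesOverPrime r) (q : ℚ) (hq : q ≠ 0) :
    A.valuation (q : Qb) = A.valuation (r : Qb) ^ (padicValRat r q) := by
  have hv0 := pcs_val_prime_ne_zero A hr
  have hnum : q.num.natAbs ≠ 0 := by simpa using hq
  have h1 : A.valuation ((q.num : ℤ) : Qb) = A.valuation (r : Qb) ^ (padicValNat r q.num.natAbs) := by
    rw [← pcs_val_nat A hr hA _ hnum]
    rcases Int.natAbs_eq q.num with h | h
    · conv_lhs => rw [h]
      simp
    · conv_lhs => rw [h]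
      simp
  have h2 := pcs_val_nat A hr hA q.den q.den_ne_zero
  have h3 : (q : Qb) = (q.num : Qb) / (q.den : Qb) := Rat.cast_def q
  rw [h3, map_div₀, h1, h2]
  unfold padicValRat padicValInt
  rw [zpow_sub₀ hv0, zpow_natCast, zpow_natCast]

/-- the valuation of `r` has infinite order. -/
theorem pcs_zpow_inj {r : ℕ} (hr : r.Prime) (hA : A.LiesOverPrime r) {m n : ℤ}
    (h : A.valuation (r : Qb) ^ m = A.valuation (r : Qb) ^ n) : m = n := by
  have h0 : 0 < A.valuation (r : Qb) := zero_lt_iff.mpr (pcs_val_prime_ne_zero A hr)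
  exact (zpow_right_strictAnti₀ h0 (pcs_val_prime_lt_one A hA)).injective h

end Val

section Val2
variable (A : ValuationSubring Qb)

theorem pcs_isAlgebraic_int (x : Qb) : IsAlgebraic ℤ x := by
  have h1 : Algebra.IsAlgebraic ℤ ℚ := IsLocalization.isAlgebraic ℚ (nonZeroDivisors ℤ)
  have h2 : Algebra.IsAlgebraic ℚ Qb := AlgebraicClosure.isAlgebraic ℚ
  have h3 : Algebra.IsAlgebraic ℤ Qb := Algebra.IsAlgebraic.trans ℤ ℚ Qb
  exact h3.isAlgebraic x

/-- **DVD**: every nonzero element of `ℚ̄` divides a power of `r` in `A`. -/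
theorem pcs_dvd {r : ℕ} (hr : r.Prime) (hA : A.LiesOverPrime r) (x : Qb) (hx : x ≠ 0) :
    ∃ m : ℕ, A.valuation (r : Qb) ^ m ≤ A.valuation x := by
  obtain ⟨y, hy0, hy⟩ := (pcs_isAlgebraic_int x⁻¹).exists_integral_multiple
  have h1 : y • x⁻¹ ∈ A := FrobExists.mem_valuationSubring_of_isIntegral A hy
  have h2 : A.valuation (y • x⁻¹) ≤ 1 := (A.valuation_le_one_iff _).mpr h1
  have h3 : y • x⁻¹ = (y : Qb) * x⁻¹ := by simp [zsmul_eq_mul]
  rw [h3, map_mul, map_inv₀] at h2
  have hvx : A.valuation x ≠ 0 := (Valuation.ne_zero_iff _).mpr hx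
  have h4 : A.valuation (y : Qb) ≤ A.valuation x := by
    have := mul_le_mul_left h2 (A.valuation x)
    rwa [one_mul, mul_assoc, inv_mul_cancel₀ hvx, mul_one] at this
  have hy' : y.natAbs ≠ 0 := by simpa using hy0
  have h5 : A.valuation (y : Qb) = A.valuation (r : Qb) ^ (padicValNat r y.natAbs) := by
    rw [← pcs_val_nat A hr hA _ hy']
    rcases Int.natAbs_eq y with h | h
    · conv_lhs => rw [h]
      simp
    · conv_lhs => rw [h]
      simp
  exact ⟨_, h5 ▸ h4⟩

/-- the hypothesis **UNR** at `(r, A)`: an inertia-fixed nonunit of `A` is divisible by `r`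
(the fixed field of inertia is unramified).  This is `Fermat.Agent.FFL.UnrProp r A`, unfolded. -/
def PcsUnr (r : ℕ) (A : ValuationSubring Qb) : Prop :=
  ∀ x ∈ A.nonunits, (∀ σ ∈ A.inertiaSubgroupIn ℚ, σ x = x) → x / (r : Qb) ∈ A

theorem pcs_val_fixed_aux {r : ℕ} (hr : r.Prime) (hA : A.LiesOverPrime r) (hU : PcsUnr r A) :
    ∀ (m : ℕ) (x : Qb), x ≠ 0 → (∀ σ ∈ A.inertiaSubgroupIn ℚ, σ x = x) → A.valuation x ≤ 1 →
      A.valuation (r : Qb) ^ m ≤ A.valuation x →
      ∃ n : ℕ, A.valuation x = A.valuation (r : Qb) ^ n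
  | 0, x, _, _, hle, hm => ⟨0, by
      rw [pow_zero] at hm ⊢
      exact le_antisymm hle hm⟩
  | m + 1, x, hx, hfix, hle, hm => by
      have hr0 : (r : Qb) ≠ 0 := by exact_mod_cast hr.ne_zero
      have hv0 : A.valuation (r : Qb) ≠ 0 := pcs_val_prime_ne_zero A hr
      rcases hle.eq_or_lt with h1 | h1
      · exact ⟨0, by rw [pow_zero]; exact h1⟩
      · have hx' : x ∈ A.nonunits := (ValuationSubring.mem_nonunits_iff A).mpr h1
        have h2 : x / (r : Qb) ∈ A := hU x hx' hfix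
        have h3 : A.valuation (x / (r : Qb)) ≤ 1 := (A.valuation_le_one_iff _).mpr h2
        have h4 : A.valuation x = A.valuation (x / (r : Qb)) * A.valuation (r : Qb) := by
          rw [← map_mul, div_mul_cancel₀ _ hr0]
        have h5 : A.valuation (r : Qb) ^ m ≤ A.valuation (x / (r : Qb)) := by
          rw [h4, pow_succ] at hm
          exact le_of_mul_le_mul_right hm (zero_lt_iff.mpr hv0)
        have h6 : ∀ σ ∈ A.inertiaSubgroupIn ℚ, σ (x / (r : Qb)) = x / (r : Qb) := by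
          intro σ hσ
          rw [map_div₀, hfix σ hσ, map_natCast]
        obtain ⟨n, hn⟩ := pcs_val_fixed_aux hr hA hU m (x / (r : Qb)) (div_ne_zero hx hr0) h6 h3 h5
        exact ⟨n + 1, by rw [h4, hn, pow_succ]⟩

/-- **the value group of the inertia field is that of `ℚ`**: an inertia-fixed element of `ℚ̄ˣ`
has the valuation of a power of `r`. -/
theorem pcs_val_fixed {r : ℕ} (hr : r.Prime) (hA : A.LiesOverPrime r) (hU : PcsUnr r A)
    (x : Qb) (hx : x ≠ 0) (hfix : ∀ σ ∈ A.inertiaSubgroupIn ℚ, σ x = x) :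
    ∃ n : ℤ, A.valuation x = A.valuation (r : Qb) ^ n := by
  rcases le_total (A.valuation x) 1 with h | h
  · obtain ⟨m, hm⟩ := pcs_dvd A hr hA x hx
    obtain ⟨n, hn⟩ := pcs_val_fixed_aux A hr hA hU m x hx hfix h hm
    exact ⟨n, by rw [hn, zpow_natCast]⟩
  · have hvx : A.valuation x ≠ 0 := (Valuation.ne_zero_iff _).mpr hx
    have h' : A.valuation x⁻¹ ≤ 1 := by
      rw [map_inv₀]
      exact inv_le_one_of_one_le₀ h
    have hfix' : ∀ σ ∈ A.inertiaSubgroupIn ℚ, σ x⁻¹ = x⁻¹ := by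
      intro σ hσ
      rw [map_inv₀, hfix σ hσ]
    obtain ⟨m, hm⟩ := pcs_dvd A hr hA x⁻¹ (inv_ne_zero hx)
    obtain ⟨n, hn⟩ := pcs_val_fixed_aux A hr hA hU m x⁻¹ (inv_ne_zero hx) hfix' h' hm
    refine ⟨-(n : ℤ), ?_⟩
    rw [zpow_neg, zpow_natCast, ← hn, map_inv₀, inv_inv]

end Val2

/-! ### rational numbers which are `k`-th powers -/

/-- a natural number all of whose prime exponents are divisible by `k` is a `k`-th power. -/
theorem pcs_nat_eq_pow (k : ℕ) (n : ℕ) (hn : n ≠ 0)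
    (h : ∀ p : ℕ, p.Prime → k ∣ padicValNat p n) : ∃ b : ℕ, b ≠ 0 ∧ n = b ^ k := by
  let f : ℕ →₀ ℕ := n.factorization.mapRange (· / k) (Nat.zero_div k)
  have hf : ∀ p ∈ f.support, p.Prime := by
    intro p hp
    have h1 : p ∈ n.factorization.support := Finsupp.support_mapRange hp
    rw [Nat.support_factorization] at h1
    exact Nat.prime_of_mem_primeFactors h1
  have hb0 : f.prod (· ^ ·) ≠ 0 := by
    rw [Finsupp.prod, Finset.prod_ne_zero_iff]
    intro p hp
    exact pow_ne_zero _ (hf p hp).ne_zero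
  refine ⟨f.prod (· ^ ·), hb0, ?_⟩
  apply Nat.eq_of_factorization_eq hn (pow_ne_zero _ hb0)
  intro p
  rw [Nat.factorization_pow, Nat.prod_pow_factorization_eq_self hf]
  simp only [Finsupp.smul_apply, smul_eq_mul, f, Finsupp.mapRange_apply]
  by_cases hp : p.Prime
  · have := h p hp
    rw [← Nat.factorization_def n hp] at this
    exact (Nat.mul_div_cancel' this).symm
  · simp [Nat.factorization_eq_zero_of_not_prime n hp]

/-- a nonzero rational number all of whose valuations are divisible by `k` is `±` a `k`-th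
power. -/
theorem pcs_rat_eq_pow (k : ℕ) (q : ℚ) (hq : q ≠ 0)
    (h : ∀ p : ℕ, p.Prime → (k : ℤ) ∣ padicValRat p q) :
    ∃ b : ℚ, b ≠ 0 ∧ (q = b ^ k ∨ q = -b ^ k) := by
  have hnum : q.num.natAbs ≠ 0 := by simpa using hq
  have hcop : q.num.natAbs.Coprime q.den := q.reduced
  have h1 : ∀ p : ℕ, p.Prime → k ∣ padicValNat p q.num.natAbs ∧ k ∣ padicValNat p q.den := by
    intro p hp
    have hpq := h p hp
    unfold padicValRat padicValInt at hpq
    by_cases hd : p ∣ q.num.natAbs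
    · have hnd : ¬ p ∣ q.den := fun hd' =>
        hp.one_lt.ne' (Nat.eq_one_of_dvd_coprimes hcop hd hd')
      rw [padicValNat.eq_zero_of_not_dvd hnd] at hpq ⊢
      refine ⟨?_, dvd_zero _⟩
      rw [Nat.cast_zero, sub_zero] at hpq
      exact_mod_cast hpq
    · rw [padicValNat.eq_zero_of_not_dvd hd] at hpq ⊢
      refine ⟨dvd_zero _, ?_⟩
      rw [Nat.cast_zero, zero_sub, dvd_neg] at hpq
      exact_mod_cast hpq
  obtain ⟨a, ha0, ha⟩ := pcs_nat_eq_pow k q.num.natAbs hnum fun p hp => (h1 p hp).1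
  obtain ⟨d, hd0, hd⟩ := pcs_nat_eq_pow k q.den q.den_ne_zero fun p hp => (h1 p hp).2
  refine ⟨(a : ℚ) / d, div_ne_zero (by exact_mod_cast ha0) (by exact_mod_cast hd0), ?_⟩
  have hq' : q = (q.num : ℚ) / (q.den : ℚ) := (Rat.num_div_den q).symm
  have hden : (q.den : ℚ) = (d : ℚ) ^ k := by exact_mod_cast hd
  rcases Int.natAbs_eq q.num with hs | hs
  · left
    have hn' : (q.num : ℚ) = (a : ℚ) ^ k := by
      rw [hs, ha]
      push_cast
      rfl
    rw [div_pow, ← hn', ← hden, ← hq']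
  · right
    have hn' : (q.num : ℚ) = -(a : ℚ) ^ k := by
      rw [hs, ha]
      push_cast
      rfl
    rw [div_pow, ← neg_div, ← hn', ← hden, ← hq']


/-! ### Hilbert 90 -/

attribute [local instance] FrobExists.isAlgebraic_Qb FrobExists.isAlgClosure_Qb

section H90

/-- Hilbert 90 (Mathlib) without units. -/
theorem pcs_h90_generic {L : Type} [Field L] [Algebra ℚ L] [FiniteDimensional ℚ L]
    (f : (L ≃ₐ[ℚ] L) → L) (hf0 : ∀ g, f g ≠ 0) (hf : ∀ g h, f (g * h) = f g * g (f h)) :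
    ∃ x : L, x ≠ 0 ∧ ∀ g : L ≃ₐ[ℚ] L, f g * x = g x := by
  let F : (L ≃ₐ[ℚ] L) → Lˣ := fun g => Units.mk0 (f g) (hf0 g)
  have hF : groupCohomology.IsMulCocycle₁ F := by
    intro g h
    apply Units.ext
    simp only [F, Units.val_mul, Units.val_mk0]
    rw [hf g h, mul_comm]
    rfl
  obtain ⟨x, hx⟩ := groupCohomology.isMulCoboundary₁_of_isMulCocycle₁_of_aut_to_units F hF
  refine ⟨(x : L), x.ne_zero, fun g => ?_⟩
  have h2 := hx g
  have h3 : g • x = F g * x := by rw [← h2, div_mul_cancel]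
  have h4 := congrArg Units.val h3
  simp only [F, Units.val_mul, Units.val_mk0] at h4
  rw [← h4]
  rfl

variable (m : GQb → Qb)

theorem pcs_coc_one (hm : ∀ σ τ, m (σ * τ) = m σ * σ (m τ)) (hne : ∀ σ, m σ ≠ 0) : m 1 = 1 := by
  have h := hm 1 1
  rw [mul_one, AlgEquiv.one_apply] at h
  exact (mul_eq_left₀ (hne 1)).mp h.symm

/-- **Hilbert 90 for `G_ℚ`**: a continuous cocycle with values in `ℚ̄ˣ` is a coboundary. -/
theorem pcs_hilbert90 (hm : ∀ σ τ, m (σ * τ) = m σ * σ (m τ)) (hne : ∀ σ, m σ ≠ 0)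
    (hcts : ∃ E : IntermediateField ℚ Qb, FiniteDimensional ℚ E ∧
      ∀ σ τ, τ ∈ E.fixingSubgroup → m (σ * τ) = m σ) :
    ∃ α : Qb, α ≠ 0 ∧ ∀ σ, m σ * α = σ α := by
  obtain ⟨E, hEfin, hE⟩ := hcts
  let K : IntermediateField ℚ Qb := IntermediateField.normalClosure ℚ E Qb
  have hKfin : FiniteDimensional ℚ K := inferInstance
  have hKnorm : Normal ℚ K := normalClosure.normal ℚ E Qb
  have hEK : E ≤ K := IntermediateField.le_normalClosure E
  have hfixle : K.fixingSubgroup ≤ E.fixingSubgroup := IntermediateField.fixingSubgroup_le hEK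
  have hm1 : m 1 = 1 := pcs_coc_one m hm hne
  have hrn : ∀ (σ : GQb) (x : K), ((AlgEquiv.restrictNormal σ K x : K) : Qb) = σ (x : Qb) :=
    fun σ x => AlgEquiv.restrictNormal_commutes σ K x
  -- `m` is right-invariant under `Fix K`
  have hK : ∀ σ τ, τ ∈ K.fixingSubgroup → m (σ * τ) = m σ := fun σ τ hτ => hE σ τ (hfixle hτ)
  -- two elements with the same restriction to `K` have the same value
  have hres : ∀ σ σ' : GQb, (∀ x : K, σ (x : Qb) = σ' (x : Qb)) → m σ = m σ' := by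
    intro σ σ' h
    have hmem : σ⁻¹ * σ' ∈ K.fixingSubgroup := by
      rw [IntermediateField.mem_fixingSubgroup_iff]
      intro x hx
      have := h ⟨x, hx⟩
      simp only at this
      change (σ⁻¹ * σ') x = x
      rw [AlgEquiv.mul_apply, ← this]
      exact σ.symm_apply_apply x
    have := hK σ (σ⁻¹ * σ') hmem
    rw [mul_inv_cancel_left] at this
    exact this.symm
  -- the values lie in `K`
  have hval : ∀ σ, m σ ∈ K := by
    intro σ
    rw [← InfiniteGalois.fixedField_fixingSubgroup K, IntermediateField.mem_fixedField_iff]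
    intro τ hτ
    have h1 : m (τ * σ) = m τ * τ (m σ) := hm τ σ
    have h2 : m τ = 1 := by
      have := hK 1 τ hτ
      rwa [one_mul, hm1] at this
    have h3 : m (τ * σ) = m σ := by
      apply hres
      intro x
      rw [AlgEquiv.mul_apply]
      have hσx : σ (x : Qb) ∈ K := by
        rw [← hrn]
        exact (AlgEquiv.restrictNormal σ K x).2
      exact (IntermediateField.mem_fixingSubgroup_iff _ _).mp hτ _ hσx
    rw [h3, h2, one_mul] at h1
    exact h1.symm
  -- the cocycle on `Gal(K/ℚ)`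
  let lift : (K ≃ₐ[ℚ] K) → GQb := fun g => AlgEquiv.liftNormal g Qb
  have hlift : ∀ (g : K ≃ₐ[ℚ] K) (x : K), lift g (x : Qb) = ((g x : K) : Qb) := fun g x =>
    AlgEquiv.liftNormal_commutes g Qb x
  let f : (K ≃ₐ[ℚ] K) → K := fun g => ⟨m (lift g), hval _⟩
  have hf0 : ∀ g, f g ≠ 0 := fun g h => hne (lift g) (congrArg Subtype.val h)
  have hf : ∀ g h, f (g * h) = f g * g (f h) := by
    intro g h
    apply Subtype.ext
    have h1 : m (lift (g * h)) = m (lift g * lift h) := by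
      apply hres
      intro x
      rw [hlift, AlgEquiv.mul_apply, AlgEquiv.mul_apply, hlift, hlift]
    have h2 := hm (lift g) (lift h)
    have h3 : lift g (m (lift h)) = ((g ⟨m (lift h), hval _⟩ : K) : Qb) := hlift g ⟨_, hval _⟩
    simp only [f, MulMemClass.coe_mul]
    rw [h1, h2, h3]
  obtain ⟨x, hx0, hx⟩ := pcs_h90_generic f hf0 hf
  refine ⟨(x : Qb), ?_, ?_⟩
  · intro h
    exact hx0 (Subtype.ext h)
  · intro σ
    let g : K ≃ₐ[ℚ] K := AlgEquiv.restrictNormal σ K
    have h1 : m σ = m (lift g) := by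
      apply hres
      intro y
      rw [hlift]
      exact (hrn σ y).symm
    have h2 := congrArg Subtype.val (hx g)
    rw [← hrn σ x, ← h2, h1]
    rfl

end H90

/-! ### the `μ`-piece -/

section Mu

theorem pcs_inertia_le_decomposition (A : ValuationSubring Qb) {σ : GQb}
    (hσ : σ ∈ A.inertiaSubgroupIn ℚ) : σ ∈ A.decompositionSubgroup ℚ := by
  obtain ⟨τ, -, rfl⟩ := Subgroup.mem_map.mp hσ
  exact τ.2

/-- an element of `ℚ̄` fixed by `G_ℚ` is rational. -/
theorem pcs_rational_of_fixed (x : Qb) (hx : ∀ σ : GQb, σ x = x) : ∃ q : ℚ, (q : Qb) = x := by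
  have h1 : x ∈ Set.range (algebraMap ℚ Qb) := by
    rw [InfiniteGalois.mem_range_algebraMap_iff_fixed]
    exact hx
  obtain ⟨q, hq⟩ := h1
  exact ⟨q, by rw [← hq]; simp⟩

/-- **(ii)** a continuous cocycle `κ : G_ℚ → μ_{l'}` which is trivial on (one) inertia group over
every prime `r ≠ l'` and is the Kummer cocycle of a unit on the decomposition group at `l'` is the
coboundary of a root of unity of order dividing `2 l'`. -/
theorem pcs_mu_cocycle (l' : ℕ) (hl : l'.Prime)
    (hU : ∀ (r : ℕ) (A : ValuationSubring Qb), r.Prime → A.LiesOverPrime r → PcsUnr r A)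
    (κ : GQb → Qb) (hpow : ∀ σ, κ σ ^ l' = 1)
    (hcoc : ∀ σ τ, κ (σ * τ) = κ σ * σ (κ τ))
    (hcts : ∃ E : IntermediateField ℚ Qb, FiniteDimensional ℚ E ∧
      ∀ σ τ, τ ∈ E.fixingSubgroup → κ (σ * τ) = κ σ)
    (hunr : ∀ r : ℕ, r.Prime → r ≠ l' → ∃ A : ValuationSubring Qb, A.LiesOverPrime r ∧
      ∀ σ ∈ A.inertiaSubgroupIn ℚ, κ σ = 1)
    (Al : ValuationSubring Qb) (hAl : Al.LiesOverPrime l')
    (hunit : ∃ a : Qb, a ∈ Al ∧ a⁻¹ ∈ Al ∧ a ≠ 0 ∧
      ∀ σ ∈ Al.decompositionSubgroup ℚ, κ σ * a = σ a) :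
    ∃ ζ : Qb, ζ ^ (2 * l') = 1 ∧ ∀ σ : GQb, κ σ * ζ = σ ζ := by
  have hl0 : l' ≠ 0 := hl.ne_zero
  have hne : ∀ σ, κ σ ≠ 0 := by
    intro σ h
    have := hpow σ
    rw [h, zero_pow hl0] at this
    exact zero_ne_one this
  obtain ⟨α, hα0, hα⟩ := pcs_hilbert90 κ hcoc hne hcts
  -- `α ^ l'` is rational
  have hfix : ∀ σ : GQb, σ (α ^ l') = α ^ l' := by
    intro σ
    rw [map_pow, ← hα σ, mul_pow, hpow, one_mul]
  obtain ⟨q, hq⟩ := pcs_rational_of_fixed (α ^ l') hfix
  have hq0 : q ≠ 0 := by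
    intro h
    rw [h, Rat.cast_zero] at hq
    exact pow_ne_zero l' hα0 hq.symm
  -- the valuations of `q`
  have key : ∀ (r : ℕ) (hr : r.Prime) (A : ValuationSubring Qb), A.LiesOverPrime r →
      (∃ n : ℤ, A.valuation α = A.valuation (r : Qb) ^ n) → (l' : ℤ) ∣ padicValRat r q := by
    intro r hr A hA ⟨n, hn⟩
    have h1 := pcs_val_rat A hr hA q hq0
    rw [hq, map_pow, hn, ← zpow_natCast, ← zpow_mul] at h1
    have h2 := pcs_zpow_inj A hr hA h1
    exact ⟨n, by rw [← h2, mul_comm]⟩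
  have hdiv : ∀ r : ℕ, r.Prime → (l' : ℤ) ∣ padicValRat r q := by
    intro r hr
    by_cases hrl : r = l'
    · subst hrl
      obtain ⟨a, ha, ha', ha0, hκa⟩ := hunit
      have hva : Al.valuation a = 1 := by
        have h1 : Al.valuation a ≤ 1 := (Al.valuation_le_one_iff _).mpr ha
        have h2 : Al.valuation a⁻¹ ≤ 1 := (Al.valuation_le_one_iff _).mpr ha'
        rw [map_inv₀] at h2
        have h3 : Al.valuation a ≠ 0 := (Valuation.ne_zero_iff _).mpr ha0
        exact le_antisymm h1 ((inv_le_one₀ (zero_lt_iff.mpr h3)).mp h2)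
      have hγ : ∀ σ ∈ Al.inertiaSubgroupIn ℚ, σ (α / a) = α / a := by
        intro σ hσ
        have h1 := hκa σ (pcs_inertia_le_decomposition Al hσ)
        rw [map_div₀, ← hα σ, ← h1]
        exact mul_div_mul_left _ _ (hne σ)
      obtain ⟨n, hn⟩ := pcs_val_fixed Al hr hAl (hU r Al hr hAl) (α / a) (div_ne_zero hα0 ha0) hγ
      rw [map_div₀, hva, div_one] at hn
      exact key r hr Al hAl ⟨n, hn⟩
    · obtain ⟨A, hA, hκA⟩ := hunr r hr hrl
      have hfixα : ∀ σ ∈ A.inertiaSubgroupIn ℚ, σ α = α := by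
        intro σ hσ
        rw [← hα σ, hκA σ hσ, one_mul]
      exact key r hr A hA (pcs_val_fixed A hr hA (hU r A hr hA) α hα0 hfixα)
  obtain ⟨b, hb0, hb⟩ := pcs_rat_eq_pow l' q hq0 hdiv
  have hbQ : (b : Qb) ≠ 0 := by exact_mod_cast hb0
  refine ⟨α / (b : Qb), ?_, ?_⟩
  · have h1 : (α / (b : Qb)) ^ l' = 1 ∨ (α / (b : Qb)) ^ l' = -1 := by
      rw [div_pow, ← hq]
      rcases hb with h | h
      · left
        rw [h]
        push_cast
        exact div_self (pow_ne_zero _ hbQ)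
      · right
        rw [h]
        push_cast
        rw [neg_div, div_self (pow_ne_zero _ hbQ)]
    rw [mul_comm, pow_mul]
    rcases h1 with h | h <;> rw [h] <;> simp
  · intro σ
    rw [map_div₀, ← hα σ, map_ratCast, mul_div_assoc]

end Mu

end Fermat.Agent.EDesc
end
end MergeWrap_E_Desc_PCS

section MergeWrap_E_Desc_PCSMain -- from E/Desc/PCSMain.lean

set_option autoImplicit false

namespace Fermat.Agent.EDesc

local notation "Qb" => AlgebraicClosure ℚ
local notation "GQb" => (AlgebraicClosure ℚ ≃ₐ[ℚ] AlgebraicClosure ℚ)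

/-- the inertia field is unramified (helper26's `FFL.unrProp`). -/
theorem pcsUnr_holds (r : ℕ) (A : ValuationSubring Qb) (hr : r.Prime) (hA : A.LiesOverPrime r) :
    PcsUnr r A :=
  Fermat.Agent.FFL.unrProp r hr A hA

/-- **PCS (i)**: a normal open subgroup of `G_ℚ` containing an inertia group over every prime is
everything. -/
theorem pcs_normal_eq_top (N : Subgroup GQb) [N.Normal]
    (hopen : ∃ E : IntermediateField ℚ Qb, FiniteDimensional ℚ E ∧ E.fixingSubgroup ≤ N)
    (hunr : ∀ q : ℕ, q.Prime → ∃ A : ValuationSubring Qb, A.LiesOverPrime q ∧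
      A.inertiaSubgroupIn ℚ ≤ N) : N = ⊤ := by
  obtain ⟨E, hEfin, hEN⟩ := hopen
  have hNopen : IsOpen (N : Set GQb) := Subgroup.isOpen_mono hEN E.fixingSubgroup_isOpen
  have hker : (QuotientGroup.mk' N).ker = N := QuotientGroup.ker_mk' N
  have h := Fermat.Agent.Minkowski.minkowski_bridge (QuotientGroup.mk' N)
    (by rw [hker]; exact hNopen) (fun q hq => by
      obtain ⟨A, hA, hAN⟩ := hunr q hq
      exact ⟨A, hA, fun σ hσ => (QuotientGroup.eq_one_iff σ).mpr (hAN hσ)⟩)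
  rw [eq_top_iff]
  intro σ _
  exact (QuotientGroup.eq_one_iff σ).mp (h σ)

/-- **PCS (i)** in the form of the interface. -/
theorem pcsEt_holds (p l' : ℕ) (Ap Al : ValuationSubring Qb)
    (hAp : Ap.LiesOverPrime p) (hAl : Al.LiesOverPrime l') : PcsEt p l' Ap Al := by
  intro N hN hopen _ _ hunr hNp hNl
  haveI := hN
  refine pcs_normal_eq_top N hopen fun q hq => ?_
  by_cases hqp : q = p
  · exact ⟨Ap, hqp ▸ hAp, hNp⟩
  by_cases hql : q = l'
  · exact ⟨Al, hql ▸ hAl, hNl⟩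
  obtain ⟨A, hA⟩ := Fermat.Agent.FrobExists.exists_valuationSubring_liesOver q hq
  refine ⟨A, hA, hunr q hq ?_ A hA⟩
  simp only [Set.mem_insert_iff, Set.mem_singleton_iff, not_or]
  exact ⟨hqp, hql⟩

/-- **PCS (ii)** in the form of the interface. -/
theorem pcsMu_holds (p l' : ℕ) (hp : p.Prime) (hl : l'.Prime) (Ap Al : ValuationSubring Qb)
    (hAp : Ap.LiesOverPrime p) (hAl : Al.LiesOverPrime l') : PcsMu p l' Ap Al := by
  intro κ hκ
  refine pcs_mu_cocycle l' hl (fun r A hr hA => pcsUnr_holds r A hr hA) κ hκ.pow hκ.coc hκ.cts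
    (fun r hr hrl => ?_) Al hAl hκ.unit
  by_cases hrp : r = p
  · exact ⟨Ap, hrp ▸ hAp, hκ.unram_p⟩
  obtain ⟨A, hA⟩ := Fermat.Agent.FrobExists.exists_valuationSubring_liesOver r hr
  refine ⟨A, hA, hκ.unram r hr ?_ A hA⟩
  simp only [Set.mem_insert_iff, Set.mem_singleton_iff, not_or]
  exact ⟨hrp, hrl⟩

end Fermat.Agent.EDesc
end MergeWrap_E_Desc_PCSMain
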