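import Fermat.Agent.MUL.Orig.E.Desc.Defs
import Fermat.Agent.MUL.Lib.TameInertia.Main
import Fermat.Agent.MUL.E.Desc.MainDefs
import Fermat.Agent.MUL.Orig.F3.OpenStab
import Fermat.Agent.MUL.Orig.Lib.BadRed.Bridge.Targets
import Fermat.Agent.MUL.E.Desc.W.SwapAll

section MergeWrap_E_Desc_Tame -- from E/Desc/Tame.lean

set_option autoImplicit false

namespace Fermat.Agent.EDesc

local notation "Qb" => AlgebraicClosure ℚ
local notation "GQb" => (AlgebraicClosure ℚ ≃ₐ[ℚ] AlgebraicClosure ℚ)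

section Tame

variable {W : Type*} [AddCommGroup W] [DistribMulAction GQb W]

/-- `(σ - 1)² = 0` implies `σ ^ n = 1 + n (σ - 1)`. -/
lemma tame_pow_smul (σ : GQb) (h : ∀ w : W, σ • (σ • w - w) = σ • w - w) (n : ℕ) (w : W) :
    σ ^ n • w = w + n • (σ • w - w) := by
  induction n with
  | zero => simp
  | succ n ih =>
    have e : σ • (n • (σ • w - w)) = n • (σ • w - w) := by
      rw [← DistribSMul.toAddMonoidHom_apply, map_nsmul, DistribSMul.toAddMonoidHom_apply,
        h w]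
    rw [pow_succ', mul_smul, ih, smul_add, e, succ_nsmul]
    abel

omit [DistribMulAction GQb W] in
/-- A finite group all of whose elements are killed by a power of `l'` has an exponent `l' ^ K`. -/
lemma tame_exists_exp [Finite W] (l' : ℕ) (hW : ∀ w : W, ∃ k : ℕ, l' ^ k • w = 0) :
    ∃ K : ℕ, ∀ w : W, l' ^ K • w = 0 := by
  classical
  have := Fintype.ofFinite W
  choose k hk using hW
  refine ⟨Finset.univ.sup k, fun w => ?_⟩
  have hle : k w ≤ Finset.univ.sup k := Finset.le_sup (Finset.mem_univ w)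
  obtain ⟨d, hd⟩ := Nat.exists_eq_add_of_le hle
  rw [hd, pow_add, mul_comm, mul_smul, hk w, smul_zero]

/-- **DESC-TAME**, single-element form.  If `(s - 1)² = 0` on the finite `l'`-group `W` for every
`s` in the inertia group at a place over `p ≠ l'` (cluster T's `TorsionInertiaUnipotent`), then
`#W ≤ (#W^{I_p})²`. -/
theorem desc_tame' (p l' : ℕ) (hp : p.Prime) (hl' : l'.Prime) (hpl : p ≠ l') [Finite W]
    (hsm : SmoothMod W) (hW : ∀ w : W, ∃ k : ℕ, l' ^ k • w = 0)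
    (Ap : ValuationSubring Qb) (hAp : Ap.LiesOverPrime p)
    (hT1 : ∀ s ∈ Ap.inertiaSubgroupIn ℚ, ∀ w : W, s • (s • w - w) = s • w - w) :
    Nat.card W ≤ Nat.card (fixedBy W (Ap.inertiaSubgroupIn ℚ)) ^ 2 := by
  classical
  obtain ⟨K, hK⟩ := tame_exists_exp l' hW
  let χ : GQb →* Equiv.Perm W := MulAction.toPermHom GQb W
  have hχ : ∀ (σ : GQb) (w : W), χ σ w = σ • w := fun _ _ => rfl
  -- the kernel of `χ` is open
  obtain ⟨E, hE, hEfix⟩ := hsm
  have hopen : IsOpen (χ.ker : Set GQb) := by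
    have := hE
    refine Subgroup.isOpen_mono ?_ (IntermediateField.fixingSubgroup_isOpen E)
    intro σ hσ
    rw [MonoidHom.mem_ker]
    ext w
    exact hEfix σ hσ w
  -- the image of inertia has order prime to `p`
  have hcop : ∀ σ ∈ Ap.inertiaSubgroupIn ℚ, (orderOf (χ σ)).Coprime p := by
    intro σ hσ
    have h1 : (χ σ) ^ (l' ^ K) = 1 := by
      ext w
      rw [← map_pow, hχ, tame_pow_smul σ (fun w => hT1 σ hσ w), hK, add_zero]
      rfl
    have h2 := orderOf_dvd_of_pow_eq_one h1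
    exact Nat.Coprime.coprime_dvd_left h2
      (Nat.Coprime.pow_left K ((Nat.coprime_primes hl' hp).2 (Ne.symm hpl)))
  obtain ⟨⟨τ₀, hτ₀, hgen⟩, -⟩ :=
    Fermat.Agent.TameInertia.tame_inertia χ hopen p hp Ap hAp hcop
  -- `f = τ₀ - 1`
  let f : W →+ W := DistribSMul.toAddMonoidHom W τ₀ - AddMonoidHom.id W
  have hf : ∀ w, f w = τ₀ • w - w := fun _ => rfl
  -- every element of inertia acts as a power of `τ₀`
  have hpow : ∀ σ ∈ Ap.inertiaSubgroupIn ℚ, ∃ k : ℕ, ∀ w : W, σ • w = τ₀ ^ k • w := by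
    intro σ hσ
    obtain ⟨k, hk⟩ := hgen σ hσ
    refine ⟨k, fun w => ?_⟩
    have h1 : σ • w = (χ τ₀ ^ k) w := by rw [← hk, hχ]
    rw [h1, ← map_pow, hχ]
  have hfix : ∀ w : W, τ₀ • w = w → ∀ n : ℕ, τ₀ ^ n • w = w := by
    intro w hw n
    induction n with
    | zero => simp
    | succ n ih => rw [pow_succ, mul_smul, hw, ih]
  have hker : f.ker ≤ fixedBy W (Ap.inertiaSubgroupIn ℚ) := by
    intro w hw σ hσ
    rw [AddMonoidHom.mem_ker, hf, sub_eq_zero] at hw
    obtain ⟨k, hk⟩ := hpow σ hσ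
    rw [hk, hfix w hw k]
  have hrange : f.range ≤ fixedBy W (Ap.inertiaSubgroupIn ℚ) := by
    rintro _ ⟨w, rfl⟩ σ hσ
    obtain ⟨k, hk⟩ := hpow σ hσ
    rw [hf, hk]
    exact hfix _ (hT1 τ₀ hτ₀ w) k
  -- count
  have hcard : Nat.card W = Nat.card f.range * Nat.card f.ker := by
    rw [AddSubgroup.card_eq_card_quotient_mul_card_addSubgroup f.ker]
    congr 1
    exact Nat.card_congr (QuotientAddGroup.quotientKerEquivRange f).toEquiv
  rw [hcard, pow_two]
  exact Nat.mul_le_mul (AddSubgroup.card_le_of_le hrange) (AddSubgroup.card_le_of_le hker)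

/-- **DESC-TAME.**  If `(s - 1)(t - 1) = 0` on the finite `l'`-group `W` for all `s, t` in the
inertia group at a place over `p ≠ l'`, then `#W ≤ (#W^{I_p})²`. -/
theorem desc_tame (p l' : ℕ) (hp : p.Prime) (hl' : l'.Prime) (hpl : p ≠ l') [Finite W]
    (hsm : SmoothMod W) (hW : ∀ w : W, ∃ k : ℕ, l' ^ k • w = 0)
    (Ap : ValuationSubring Qb) (hAp : Ap.LiesOverPrime p)
    (hT1 : ∀ s ∈ Ap.inertiaSubgroupIn ℚ, ∀ t ∈ Ap.inertiaSubgroupIn ℚ, ∀ w : W,
      s • (t • w - w) = t • w - w) :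
    Nat.card W ≤ Nat.card (fixedBy W (Ap.inertiaSubgroupIn ℚ)) ^ 2 :=
  desc_tame' p l' hp hl' hpl hsm hW Ap hAp fun s hs w => hT1 s hs s hs w

end Tame

end Fermat.Agent.EDesc
end MergeWrap_E_Desc_Tame

section MergeWrap_E_Desc_Toric -- from E/Desc/Toric.lean

set_option autoImplicit false

namespace Fermat.Agent.EDesc

open ModularCurve AlgebraicCurve

local notation "Qb" => AlgebraicClosure ℚ
local notation "GQb" => (AlgebraicClosure ℚ ≃ₐ[ℚ] AlgebraicClosure ℚ)

variable (N : ℕ) [NeZero N]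

/-- The Galois action on `W_k` is smooth. -/
theorem eisW_smoothMod (l' : ℕ) [Fact l'.Prime] (S : Finset ℕ) (k : ℕ) :
    SmoothMod (EisW N l' S k) := by
  classical
  have hpos : 0 < l' ^ k := pow_pos (Fact.out : l'.Prime).pos k
  have hex : ∀ w : EisW N l' S k, ∃ L : IntermediateField ℚ Qb, FiniteDimensional ℚ L ∧
      ∀ σ : GQb, (∀ y ∈ L, σ y = y) → σ • (w : JZero N) = (w : JZero N) :=
    fun w => Fermat.Agent.F3.torsionOpenStab N (l' ^ k) hpos (w : JZero N) w.2.1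
  choose L hLfd hL using hex
  have := Fintype.ofFinite (EisW N l' S k)
  have hfd : ∀ w, FiniteDimensional ℚ (L w) := hLfd
  refine ⟨⨆ w, L w, IntermediateField.finiteDimensional_iSup_of_finite, fun σ hσ w => ?_⟩
  apply Subtype.ext
  rw [eisW_coe_smul]
  refine hL w σ fun y hy => ?_
  have hy' : y ∈ ⨆ w, L w := (le_iSup L w) hy
  exact hσ ⟨y, hy'⟩

/-- `W_k` is an `l'`-group. -/
theorem eisW_pow_smul (l' : ℕ) (S : Finset ℕ) (k : ℕ) (w : EisW N l' S k) : l' ^ k • w = 0 := by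
  apply Subtype.ext
  rw [AddSubgroup.coe_nsmul]
  exact w.2.1

/-- **DESC-TORIC**, single-element form: (T1) on the `l'`-power torsion, for every place over the
level `N = p ≠ l'`, gives `EisToric N l' S` (with `c = 1`). -/
theorem eisToric_of' (hN : N.Prime) (l' : ℕ) [Fact l'.Prime] (hNl : N ≠ l') (S : Finset ℕ)
    (hT1 : ∀ (k : ℕ) (x : JZero N), l' ^ k • x = 0 → ∀ Ap : ValuationSubring Qb,
      Ap.LiesOverPrime N → ∀ s ∈ Ap.inertiaSubgroupIn ℚ, s • (s • x - x) = s • x - x) :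
    EisToric N l' S := by
  refine ⟨1, Nat.one_pos, fun k Ap hAp => ?_⟩
  rw [one_mul]
  refine desc_tame' N l' hN (Fact.out : l'.Prime) hNl (eisW_smoothMod N l' S k)
    (fun w => ⟨k, eisW_pow_smul N l' S k w⟩) Ap hAp fun s hs w => ?_
  apply Subtype.ext
  have h := hT1 k (w : JZero N) w.2.1 Ap hAp s hs
  simpa using h

/-- **DESC-TORIC** (helper3's form): (T1) for pairs `s, t` of inertia elements, on all torsion. -/
theorem eisToric_of (hN : N.Prime) (l' : ℕ) [Fact l'.Prime] (hNl : N ≠ l') (S : Finset ℕ)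
    (hT1 : ∀ (n : ℕ) (x : JZero N), 0 < n → n • x = 0 → ∀ Ap : ValuationSubring Qb,
      Ap.LiesOverPrime N → ∀ s ∈ Ap.inertiaSubgroupIn ℚ, ∀ t ∈ Ap.inertiaSubgroupIn ℚ,
        s • (t • x - x) = t • x - x) :
    EisToric N l' S :=
  eisToric_of' N hN l' hNl S fun k x hx Ap hAp s hs =>
    hT1 (l' ^ k) x (pow_pos (Fact.out : l'.Prime).pos k) hx Ap hAp s hs s hs

/-- **DESC-TORIC from cluster T**: `TorsionInertiaUnipotent N` gives `EisToric N l' S` for a prime
level `N ≠ l'`. -/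
theorem eisToric_of_T1 (hN : N.Prime) (l' : ℕ) [Fact l'.Prime] (hNl : N ≠ l') (S : Finset ℕ)
    (hT1 : Fermat.Agent.BadRed.TorsionInertiaUnipotent N) : EisToric N l' S := by
  refine eisToric_of' N hN l' hNl S fun k x hx Ap hAp s hs => ?_
  have hsq : ¬ N ^ 2 ∣ N := by
    intro h
    have h1 : N ^ 2 ≤ N := Nat.le_of_dvd hN.pos h
    have h2 : 2 ≤ N := hN.two_le
    nlinarith
  have hnd : ¬ N ∣ l' ^ k := by
    intro h
    have h1 := hN.dvd_of_dvd_pow h
    exact hNl ((Nat.prime_dvd_prime_iff_eq hN (Fact.out : l'.Prime)).1 h1)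
  have h := hT1 (l' ^ k) N hN dvd_rfl hsq hnd Ap hAp s hs x hx
  -- `s² x - 2 s x + x = 0`
  have e : s • (s • x - x) - (s • x - x) = s • s • x - (2 : ℤ) • (s • x) + x := by
    rw [gal_smul_sub, two_zsmul]
    abel
  exact sub_eq_zero.mp (e.trans h)

end Fermat.Agent.EDesc
end MergeWrap_E_Desc_Toric
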